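/-
S37 / piece E-c [MSEP] (helper580): effective divisors as multisets (bridge for the consumers of
`msep_fin` / `msep_inf`).  Mathlib only.

`divOfMultiset S : α →₀ ℤ` is the divisor `∑_{a ∈ S} [a]`.  It is additive, injective,
compatible with `Finsupp.mapDomain`, and every divisor with nonnegative coefficients is of this
form.
-/
import Mathlib

set_option autoImplicit false

noncomputable section

namespace Fermat.Agent.S37.H580

variable {α β : Type*}

/-- the effective divisor `∑_{a ∈ S} [a]` -/
def divOfMultiset (S : Multiset α) : α →₀ ℤ :=
  (S.map fun a => Finsupp.single a (1 : ℤ)).sum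

@[simp]
theorem divOfMultiset_zero : divOfMultiset (0 : Multiset α) = 0 := by
  simp [divOfMultiset]

@[simp]
theorem divOfMultiset_cons (a : α) (S : Multiset α) :
    divOfMultiset (a ::ₘ S) = Finsupp.single a 1 + divOfMultiset S := by
  simp [divOfMultiset]

@[simp]
theorem divOfMultiset_singleton (a : α) :
    divOfMultiset ({a} : Multiset α) = Finsupp.single a 1 := by
  simp [divOfMultiset]

@[simp]
theorem divOfMultiset_add (S T : Multiset α) :
    divOfMultiset (S + T) = divOfMultiset S + divOfMultiset T := by
  simp [divOfMultiset]

@[simp]
theorem divOfMultiset_nsmul (n : ℕ) (S : Multiset α) :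
    divOfMultiset (n • S) = n • divOfMultiset S := by
  induction n with
  | zero => simp
  | succ n ih => rw [succ_nsmul, succ_nsmul, divOfMultiset_add, ih]

theorem divOfMultiset_apply [DecidableEq α] (S : Multiset α) (a : α) :
    divOfMultiset S a = (S.count a : ℤ) := by
  induction S using Multiset.induction_on with
  | empty => simp
  | cons b S ih =>
    rw [divOfMultiset_cons, Finsupp.add_apply, ih, Multiset.count_cons, Finsupp.single_apply]
    split_ifs with h1 h2 h2
    · push_cast; ring
    · exact absurd h1.symm h2
    · exact absurd h2.symm h1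
    · push_cast; ring

theorem divOfMultiset_injective : Function.Injective (divOfMultiset (α := α)) := by
  classical
  intro S T h
  ext a
  have := DFunLike.congr_fun h a
  rw [divOfMultiset_apply, divOfMultiset_apply] at this
  exact_mod_cast this

theorem divOfMultiset_inj {S T : Multiset α} : divOfMultiset S = divOfMultiset T ↔ S = T :=
  divOfMultiset_injective.eq_iff

theorem mapDomain_divOfMultiset (r : α → β) (S : Multiset α) :
    Finsupp.mapDomain r (divOfMultiset S) = divOfMultiset (S.map r) := by
  induction S using Multiset.induction_on with
  | empty => simp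
  | cons b S ih =>
    rw [divOfMultiset_cons, Finsupp.mapDomain_add, Finsupp.mapDomain_single, ih,
      Multiset.map_cons, divOfMultiset_cons]

/-- a divisor with nonnegative coefficients comes from a multiset -/
theorem exists_divOfMultiset_eq (D : α →₀ ℤ) (hD : ∀ a, 0 ≤ D a) :
    ∃ S : Multiset α, divOfMultiset S = D := by
  classical
  refine ⟨∑ a ∈ D.support, (D a).toNat • ({a} : Multiset α), ?_⟩
  ext b
  rw [divOfMultiset_apply, Multiset.count_sum']
  simp only [Multiset.count_nsmul, Multiset.count_singleton]
  by_cases hb : b ∈ D.support
  · rw [Finset.sum_eq_single b]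
    · simp [Int.toNat_of_nonneg (hD b)]
    · intro c _ hcb
      simp [Ne.symm hcb]
    · intro h
      exact absurd hb h
  · rw [Finset.sum_eq_zero]
    · simp [Finsupp.notMem_support_iff.mp hb]
    · intro c hc
      have : b ≠ c := fun h => hb (h ▸ hc)
      simp [this]

/-- the polynomial `∏_{a ∈ S} (X - v a)` of a weighted sum of points -/
theorem prod_map_sum_nsmul {K : Type*} [Field K] {ι : Type*} (s : Finset ι) (e : ι → ℕ)
    (g : ι → α) (v : α → K) :
    ((∑ i ∈ s, e i • ({g i} : Multiset α)).map
      fun a => (Polynomial.X - Polynomial.C (v a) : Polynomial K)).prod =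
      ∏ i ∈ s, (Polynomial.X - Polynomial.C (v (g i))) ^ e i := by
  classical
  induction s using Finset.induction_on with
  | empty => simp
  | insert i s hi ih =>
    rw [Finset.sum_insert hi, Finset.prod_insert hi, Multiset.map_add, Multiset.prod_add, ih,
      Multiset.map_nsmul, Multiset.prod_nsmul, Multiset.map_singleton, Multiset.prod_singleton]

end Fermat.Agent.S37.H580
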