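/-
S37 / piece E-c [MSEP] (helper580): abstract multiset separation.

`R` a commutative `k`-algebra, `ev x : R →ₐ[k] k` a family of characters indexed by `Pt`
which is separated (`x ≠ y → ∃ f, ev x f ≠ ev y f`).  If two finite multisets `S S'` of points
have the same value multisets (equivalently the same polynomials `∏ (Y - f(x))`) for every
`f : R`, then `S = S'`.  Mathlib only.
-/
import Mathlib

set_option autoImplicit false

namespace Fermat.Agent.S37.H580

open Polynomial

variable {k R Pt : Type*} [Field k] [CommRing R] [Algebra k R]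

/-- For a separated family of characters there is, for every finite set `s` and point `x`,
a function equal to `1` at `x` and to `0` at the other points of `s`. -/
theorem exists_indicator (ev : Pt → R →ₐ[k] k)
    (hsep : ∀ x y, x ≠ y → ∃ f, ev x f ≠ ev y f) (s : Finset Pt) (x : Pt) :
    ∃ f : R, ev x f = 1 ∧ ∀ y ∈ s, y ≠ x → ev y f = 0 := by
  classical
  induction s using Finset.induction_on with
  | empty => exact ⟨1, map_one _, by simp⟩
  | insert y s hy ih =>
    obtain ⟨f, hf1, hf0⟩ := ih
    by_cases hyx : y = x
    · subst hyx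
      exact ⟨f, hf1, fun z hz hzx => hf0 z ((Finset.mem_insert.mp hz).resolve_left hzx) hzx⟩
    · obtain ⟨g, hg⟩ := hsep x y (Ne.symm hyx)
      have hne : ev x g - ev y g ≠ 0 := sub_ne_zero.mpr hg
      refine ⟨f * ((ev x g - ev y g)⁻¹ • (g - algebraMap k R (ev y g))), ?_, ?_⟩
      · rw [map_mul, hf1, one_mul, map_smul, map_sub, AlgHom.commutes, smul_eq_mul,
          Algebra.algebraMap_self_apply, inv_mul_cancel₀ hne]
      · intro z hz hzx
        rcases Finset.mem_insert.mp hz with rfl | hz
        · rw [map_mul, map_smul, map_sub, AlgHom.commutes, Algebra.algebraMap_self_apply,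
            sub_self, smul_zero, mul_zero]
        · rw [map_mul, hf0 z hz hzx, zero_mul]

/-- **Multiset separation**, value form. -/
theorem multiset_eq_of_forall_map_eq (ev : Pt → R →ₐ[k] k)
    (hsep : ∀ x y, x ≠ y → ∃ f, ev x f ≠ ev y f) (S S' : Multiset Pt)
    (h : ∀ f : R, S.map (fun x => ev x f) = S'.map fun x => ev x f) : S = S' := by
  classical
  ext x
  obtain ⟨f, hf1, hf0⟩ := exists_indicator ev hsep (S + S').toFinset x
  have key : ∀ T : Multiset Pt, T ≤ S + S' →
      (T.map fun y => ev y f).count 1 = T.count x := by
    intro T hT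
    rw [Multiset.count_map, Multiset.count_eq_card_filter_eq]
    congr 1
    apply Multiset.filter_congr
    intro y hy
    constructor
    · intro h1
      by_contra hyx
      have h0 := hf0 y (Multiset.mem_toFinset.mpr (Multiset.mem_of_le hT hy))
        (fun h => hyx h.symm)
      rw [h0] at h1
      exact one_ne_zero h1
    · intro hxy
      rw [← hxy, hf1]
  rw [← key S (Multiset.le_add_right S S'), ← key S' (Multiset.le_add_left S' S), h f]

/-- **Multiset separation**, polynomial form: equality of `∏_{x ∈ S} (Y - f(x))` and
`∏_{x ∈ S'} (Y - f(x))` for every `f` forces `S = S'`. -/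
theorem multiset_eq_of_forall_prod_eq (ev : Pt → R →ₐ[k] k)
    (hsep : ∀ x y, x ≠ y → ∃ f, ev x f ≠ ev y f) (S S' : Multiset Pt)
    (h : ∀ f : R, (S.map fun x => (X - C (ev x f) : k[X])).prod =
      (S'.map fun x => (X - C (ev x f) : k[X])).prod) : S = S' := by
  classical
  apply multiset_eq_of_forall_map_eq ev hsep
  intro f
  have h1 := congrArg Polynomial.roots (h f)
  have e : ∀ T : Multiset Pt, (T.map fun x => (X - C (ev x f) : k[X])) =
      (T.map fun x => ev x f).map fun a => (X - C a : k[X]) := by
    intro T
    rw [Multiset.map_map]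
    rfl
  rwa [e S, e S', Polynomial.roots_multiset_prod_X_sub_C,
    Polynomial.roots_multiset_prod_X_sub_C] at h1

end Fermat.Agent.S37.H580
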