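/-
S37 / piece E-c [MSEP] (helper580): multiset separation for places of a function field.

Generic part: `K` a field, `F/K` a field extension, `R` a `K`-subalgebra of `F` (the "regular
functions of a chart"), `S S'` finite multisets of places such that every `f ∈ R` has a value
in `K` at each place of `S + S'` and `R` separates the places of `S + S'`.  If
`∏_{Q ∈ S} (Y - f(Q)) = ∏_{Q ∈ S'} (Y - f(Q))` for every `f ∈ R`, then `S = S'`.
-/
import Fermat.Agent.S37.Core.Geo
import Fermat.Agent.S37.H580.MSep

set_option autoImplicit false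

noncomputable section

namespace Fermat.Agent.S37.H580

open AlgebraicCurve Polynomial Fermat.Agent.S37.Core

section Value

variable {K F : Type*} [Field K] [Field F] [Algebra K F]

theorem hasValue_mem {P : Place K F} {f : F} {b : K} (h : HasValue P f b) :
    f ∈ P.toValuationSubring := by
  have h1 : f - algebraMap K F b ∈ P.toValuationSubring :=
    ValuationSubring.nonunits_subset h
  have h2 := P.toValuationSubring.add_mem _ _ h1 (P.algebraMap_mem' b)
  rwa [sub_add_cancel] at h2

theorem hasValue_algebraMap (P : Place K F) (b : K) : HasValue P (algebraMap K F b) b := by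
  unfold HasValue
  rw [sub_self]
  exact P.toValuationSubring.nonunits.zero_mem

theorem hasValue_zero (P : Place K F) : HasValue P (0 : F) 0 := by
  simpa using hasValue_algebraMap P (0 : K)

theorem hasValue_one (P : Place K F) : HasValue P (1 : F) 1 := by
  simpa using hasValue_algebraMap P (1 : K)

theorem hasValue_add {P : Place K F} {f g : F} {b c : K} (hf : HasValue P f b)
    (hg : HasValue P g c) : HasValue P (f + g) (b + c) := by
  unfold HasValue at *
  have := P.toValuationSubring.nonunits.add_mem hf hg
  rw [map_add]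
  convert this using 1
  ring

theorem hasValue_mul {P : Place K F} {f g : F} {b c : K} (hf : HasValue P f b)
    (hg : HasValue P g c) : HasValue P (f * g) (b * c) := by
  have hgm := hasValue_mem hg
  unfold HasValue at *
  -- `f g - b c = (f - b) g + b (g - c)`
  obtain ⟨h1, h1'⟩ := ValuationSubring.mem_nonunits_iff_exists_mem_maximalIdeal.mp hf
  obtain ⟨h2, h2'⟩ := ValuationSubring.mem_nonunits_iff_exists_mem_maximalIdeal.mp hg
  have e : f * g - algebraMap K F (b * c) =
      (f - algebraMap K F b) * g + algebraMap K F b * (g - algebraMap K F c) := by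
    rw [map_mul]
    ring
  rw [e]
  have m1 : (f - algebraMap K F b) * g ∈ P.toValuationSubring.nonunits := by
    have : ((⟨f - algebraMap K F b, h1⟩ * ⟨g, hgm⟩ : P.toValuationSubring) : F) ∈
        P.toValuationSubring.nonunits :=
      ValuationSubring.coe_mem_nonunits_iff.mpr (Ideal.mul_mem_right _ _ h1')
    exact this
  have m2 : algebraMap K F b * (g - algebraMap K F c) ∈ P.toValuationSubring.nonunits := by
    have : ((⟨algebraMap K F b, P.algebraMap_mem' b⟩ * ⟨g - algebraMap K F c, h2⟩ :
        P.toValuationSubring) : F) ∈ P.toValuationSubring.nonunits :=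
      ValuationSubring.coe_mem_nonunits_iff.mpr (Ideal.mul_mem_left _ _ h2')
    exact this
  exact P.toValuationSubring.nonunits.add_mem m1 m2

theorem hasValue_unique {P : Place K F} {f : F} {b c : K} (hf : HasValue P f b)
    (hg : HasValue P f c) : b = c := by
  by_contra hne
  unfold HasValue at *
  have h1 : algebraMap K F (c - b) ∈ P.toValuationSubring.nonunits := by
    have := P.toValuationSubring.nonunits.sub_mem hf hg
    convert this using 1
    rw [map_sub]
    ring
  have hcb : c - b ≠ 0 := sub_ne_zero.mpr (Ne.symm hne)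
  rw [ValuationSubring.mem_nonunits_iff_or] at h1
  rcases h1 with h1 | h1
  · exact hcb ((map_eq_zero _).mp h1)
  · apply h1
    rw [← map_inv₀]
    exact P.algebraMap_mem' _

/-- at a place of degree one every regular function has a value -/
theorem exists_hasValue_of_deg_eq_one {P : Place K F} (hP : P.deg = 1) {f : F}
    (hf : f ∈ P.toValuationSubring) : ∃ b : K, HasValue P f b := by
  have h := (finrank_eq_one_iff_of_nonzero' (1 : P.ResidueField) one_ne_zero).mp hP
    (IsLocalRing.residue P.toValuationSubring ⟨f, hf⟩)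
  obtain ⟨b, hb⟩ := h
  refine ⟨b, ?_⟩
  unfold HasValue
  rw [ValuationSubring.mem_nonunits_iff_exists_mem_maximalIdeal]
  refine ⟨sub_mem hf (P.algebraMap_mem' b), ?_⟩
  rw [← IsLocalRing.residue_eq_zero_iff]
  have e : (⟨f - algebraMap K F b, sub_mem hf (P.algebraMap_mem' b)⟩ :
      P.toValuationSubring) = ⟨f, hf⟩ - algebraMap K P.toValuationSubring b := by
    apply Subtype.ext
    rfl
  rw [e, map_sub, sub_eq_zero, ← hb, Algebra.smul_def, mul_one]
  rfl

/-- the value of `f` at `P` (junk value `0` if `f` has no value at `P`) -/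
def valAt (P : Place K F) (f : F) : K :=
  haveI := Classical.propDecidable
  if h : ∃ b, HasValue P f b then h.choose else 0

theorem hasValue_valAt {P : Place K F} {f : F} (h : ∃ b, HasValue P f b) :
    HasValue P f (valAt P f) := by
  unfold valAt
  rw [dif_pos h]
  exact h.choose_spec

theorem valAt_eq {P : Place K F} {f : F} {b : K} (h : HasValue P f b) : valAt P f = b :=
  hasValue_unique (hasValue_valAt ⟨b, h⟩) h

end Value

section Sep

variable {K F : Type*} [Field K] [Field F] [Algebra K F]

/-- evaluation at a place at which all elements of `R` have values -/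
def evalAt (R : Subalgebra K F) (Q : Place K F)
    (hex : ∀ f ∈ R, ∃ b, HasValue Q f b) : R →ₐ[K] K where
  toFun f := valAt Q (f : F)
  map_one' := valAt_eq (hasValue_one Q)
  map_zero' := valAt_eq (hasValue_zero Q)
  map_mul' f g := valAt_eq
    (hasValue_mul (hasValue_valAt (hex f f.2)) (hasValue_valAt (hex g g.2)))
  map_add' f g := valAt_eq
    (hasValue_add (hasValue_valAt (hex f f.2)) (hasValue_valAt (hex g g.2)))
  commutes' b := valAt_eq (hasValue_algebraMap Q b)

theorem evalAt_apply (R : Subalgebra K F) (Q : Place K F)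
    (hex : ∀ f ∈ R, ∃ b, HasValue Q f b) (f : R) : evalAt R Q hex f = valAt Q (f : F) := rfl

/-- **Multiset separation for places** (witness form).  `R` a `K`-subalgebra of `F`, `S S'`
multisets of places at which all `f ∈ R` have values and which are separated by `R`.  If for
every `f ∈ R` and every assignment `v` of its values the polynomials `∏_{Q ∈ S} (Y - v Q)` and
`∏_{Q ∈ S'} (Y - v Q)` agree, then `S = S'`. -/
theorem multiset_place_eq (R : Subalgebra K F) (S S' : Multiset (Place K F))
    (hex : ∀ Q ∈ S + S', ∀ f ∈ R, ∃ b, HasValue Q f b)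
    (hsep : ∀ Q ∈ S + S', ∀ Q' ∈ S + S',
      (∀ f ∈ R, ∀ b, HasValue Q f b → HasValue Q' f b) → Q = Q')
    (h : ∀ f ∈ R, ∀ v : Place K F → K, (∀ Q ∈ S + S', HasValue Q f (v Q)) →
      (S.map fun Q => (X - C (v Q) : K[X])).prod = (S'.map fun Q => (X - C (v Q) : K[X])).prod) :
    S = S' := by
  classical
  -- points = places in the support
  let Pt := {Q : Place K F // Q ∈ S + S'}
  let ev : Pt → R →ₐ[K] K := fun x => evalAt R x.1 (hex x.1 x.2)
  have hsep' : ∀ x y : Pt, x ≠ y → ∃ f, ev x f ≠ ev y f := by
    intro x y hxy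
    by_contra hcon
    push Not at hcon
    apply hxy
    apply Subtype.ext
    apply hsep x.1 x.2 y.1 y.2
    intro f hf b hb
    have h1 : ev x ⟨f, hf⟩ = b := valAt_eq hb
    have h2 : ev y ⟨f, hf⟩ = valAt y.1 f := rfl
    have h3 := hasValue_valAt (hex y.1 y.2 f hf)
    rw [← h2, ← hcon ⟨f, hf⟩, h1] at h3
    exact h3
  let S₁ : Multiset Pt := S.pmap (fun Q hQ => (⟨Q, hQ⟩ : Pt))
    (fun Q hQ => Multiset.mem_add.mpr (Or.inl hQ))
  let S₁' : Multiset Pt := S'.pmap (fun Q hQ => (⟨Q, hQ⟩ : Pt))
    (fun Q hQ => Multiset.mem_add.mpr (Or.inr hQ))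
  have hS : S₁.map Subtype.val = S := by
    rw [Multiset.map_pmap]
    exact (Multiset.pmap_eq_map _ (fun Q => Q) S _).trans (Multiset.map_id' S)
  have hS' : S₁'.map Subtype.val = S' := by
    rw [Multiset.map_pmap]
    exact (Multiset.pmap_eq_map _ (fun Q => Q) S' _).trans (Multiset.map_id' S')
  have key : S₁ = S₁' := by
    apply multiset_eq_of_forall_prod_eq ev hsep'
    intro f
    have hv := h f.1 f.2 (fun Q => valAt Q (f : F))
      (fun Q hQ => hasValue_valAt (hex Q hQ f.1 f.2))
    have e1 : (S₁.map fun x => (X - C (ev x f) : K[X])) =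
        S.map fun Q => (X - C (valAt Q (f : F)) : K[X]) := by
      rw [Multiset.map_pmap]
      exact Multiset.pmap_eq_map _ (fun Q => (X - C (valAt Q (f : F)) : K[X])) S _
    have e2 : (S₁'.map fun x => (X - C (ev x f) : K[X])) =
        S'.map fun Q => (X - C (valAt Q (f : F)) : K[X]) := by
      rw [Multiset.map_pmap]
      exact Multiset.pmap_eq_map _ (fun Q => (X - C (valAt Q (f : F)) : K[X])) S' _
    rw [e1, e2]
    exact hv
  exact hS.symm.trans ((congrArg (Multiset.map Subtype.val) key).trans hS')

end Sep

end Fermat.Agent.S37.H580
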