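/-
S37 / piece E-c [MSEP] (helper580): multiset separation for a geometric reduction `GeoRed`.

`msep_fin` / `msep_inf`: two multisets `S S'` of places of `F_k` of degree one lying in the
finite chart (`j̄` regular) resp. the chart at infinity (`1/j̄` regular) are equal as soon as
`∏_{Q ∈ S} (Y - c̄(Q)) = ∏_{Q ∈ S'} (Y - c̄(Q))` for every `c : IntElt A N` integral over `A[j]`
(resp. over `A[1/j]`).  Witness form: no choice of a value function is needed by the consumer.
-/
import Fermat.Agent.S37.H580.MSepPlace

set_option autoImplicit false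
set_option synthInstance.maxHeartbeats 400000

noncomputable section

namespace Fermat.Agent.S37.H580

open ModularCurve ValuationSubring AlgebraicCurve HahnSeries Polynomial Fermat.Agent.S37.Core

variable {A : ValuationSubring (AlgebraicClosure ℚ)} {N : ℕ}

/-- `c` is integral over `A[x]` (inside `A((q))`) -/
def IsIntOver (x : LaurentSeries A) (c : IntElt A N) : Prop :=
  (evalSeries A x).IsIntegralElem c.y

theorem isFin_iff_isIntOver (c : IntElt A N) : c.IsFin ↔ IsIntOver (jqModC A) c := Iff.rfl

theorem isInf_iff_isIntOver {u : LaurentSeries A} (hu : u * jqModC A = 1) (c : IntElt A N) :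
    c.IsInf ↔ IsIntOver u c := by
  constructor
  · rintro ⟨u', hu', h⟩
    have e : u' = u := by
      calc u' = u' * (u * jqModC A) := by rw [hu, mul_one]
        _ = u * (u' * jqModC A) := by ring
        _ = u := by rw [hu', mul_one]
    subst e
    exact h
  · intro h
    exact ⟨u, hu, h⟩

/-- sum of two integral elements -/
def intEltAdd (c₁ c₂ : IntElt A N) : IntElt A N where
  y := c₁.y + c₂.y
  mem := by rw [map_add]; exact add_mem c₁.mem c₂.mem
  memk := by rw [map_add]; exact add_mem c₁.memk c₂.memk

/-- product of two integral elements -/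
def intEltMul (c₁ c₂ : IntElt A N) : IntElt A N where
  y := c₁.y * c₂.y
  mem := by rw [map_mul]; exact mul_mem c₁.mem c₂.mem
  memk := by rw [map_mul]; exact mul_mem c₁.memk c₂.memk

theorem coeffMap_C {R S : Type*} [CommRing R] [CommRing S] (f : R →+* S) (a : R) :
    coeffMap f (HahnSeries.C a : LaurentSeries R) = HahnSeries.C (f a) := by
  rw [HahnSeries.C_apply, HahnSeries.C_apply, coeffMap_single]

theorem algebraMap_eq_C {L : Type*} [Field L] (c : L) :
    algebraMap L (LaurentSeries L) c = HahnSeries.C c := by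
  rw [algebraMap_laurentSeries_eq_single, HahnSeries.C_apply]

/-- a constant -/
def intEltConst (a : A) : IntElt A N where
  y := HahnSeries.C a
  mem := by
    rw [coeffMap_C, ← algebraMap_eq_C]
    exact IntermediateField.algebraMap_mem _ _
  memk := by
    rw [coeffMap_C, ← algebraMap_eq_C]
    exact IntermediateField.algebraMap_mem _ _

theorem isIntOver_const (x : LaurentSeries A) (a : A) : IsIntOver x (intEltConst a : IntElt A N) := by
  have h := RingHom.isIntegralElem_map (f := evalSeries A x) (x := Polynomial.C a)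
  have e : evalSeries A x (Polynomial.C a) = HahnSeries.C a := by
    unfold evalSeries
    rw [Polynomial.coe_eval₂RingHom, Polynomial.eval₂_C]
  rw [e] at h
  exact h

variable (A N) in
/-- the `k`-algebra of reductions of the elements integral over `A[x]` -/
def redOver (x : LaurentSeries A) :
    Subalgebra (IsLocalRing.ResidueField A)
      (modularFunctionFieldFullC (IsLocalRing.ResidueField A) N) where
  carrier := {f | ∃ c : IntElt A N, IsIntOver x c ∧ c.sp = f}
  mul_mem' := by
    rintro _ _ ⟨c₁, h₁, rfl⟩ ⟨c₂, h₂, rfl⟩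
    exact ⟨intEltMul c₁ c₂, RingHom.IsIntegralElem.mul _ h₁ h₂, Subtype.ext (map_mul _ _ _)⟩
  add_mem' := by
    rintro _ _ ⟨c₁, h₁, rfl⟩ ⟨c₂, h₂, rfl⟩
    exact ⟨intEltAdd c₁ c₂, RingHom.IsIntegralElem.add _ h₁ h₂, Subtype.ext (map_add _ _ _)⟩
  algebraMap_mem' := by
    intro b
    obtain ⟨a, rfl⟩ := IsLocalRing.residue_surjective b
    refine ⟨intEltConst a, isIntOver_const x a, Subtype.ext ?_⟩
    show coeffMap (IsLocalRing.residue A) (HahnSeries.C a) = _
    rw [coeffMap_C, ← algebraMap_eq_C]
    rfl

theorem mem_redOver {x : LaurentSeries A}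
    {f : modularFunctionFieldFullC (IsLocalRing.ResidueField A) N} :
    f ∈ redOver A N x ↔ ∃ c : IntElt A N, IsIntOver x c ∧ c.sp = f := Iff.rfl

/-- generic: an element of a field `F` whose image under an embedding `ι : F → L` is integral
over a ring hom `φ : R → L` factoring through a valuation subring `O` of `F` lies in `O` -/
theorem mem_valuationSubring_of_isIntegralElem {R F L : Type*} [CommRing R] [Field F]
    [CommRing L] (O : ValuationSubring F) (ι : F →+* L) (hι : Function.Injective ι)
    (φ : R →+* L) (ψ : R →+* O) (hcomp : ∀ r, ι (ψ r : F) = φ r) (f : F)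
    (hf : φ.IsIntegralElem (ι f)) : f ∈ O := by
  obtain ⟨p, hp, hp0⟩ := hf
  have hint : IsIntegral O f := by
    refine ⟨p.map ψ, hp.map ψ, ?_⟩
    rw [Polynomial.eval₂_map]
    apply hι
    rw [Polynomial.hom_eval₂, map_zero, ← hp0]
    congr 1
    exact RingHom.ext fun r => hcomp r
  obtain ⟨y, hy⟩ := (IsIntegrallyClosed.isIntegral_iff (R := O) (K := F)).mp hint
  rw [← hy]
  exact y.2

/-- integrality is preserved by ring homomorphisms -/
theorem isIntegralElem_comp {R L L' : Type*} [CommRing R] [CommRing L] [CommRing L']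
    (φ : R →+* L) (g : L →+* L') (y : L) (h : φ.IsIntegralElem y) :
    (g.comp φ).IsIntegralElem (g y) := by
  obtain ⟨p, hp, hp0⟩ := h
  refine ⟨p, hp, ?_⟩
  rw [← Polynomial.hom_eval₂, hp0, map_zero]

set_option maxHeartbeats 1000000 in
/-- reductions of elements integral over `A[x]` are regular at every place where `x̄` is -/
theorem sp_mem_of_isIntOver (x : IntElt A N)
    (Q : Place (IsLocalRing.ResidueField A)
      (modularFunctionFieldFullC (IsLocalRing.ResidueField A) N))
    (hx : x.sp ∈ Q.toValuationSubring) (c : IntElt A N) (hc : IsIntOver x.y c) :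
    c.sp ∈ Q.toValuationSubring := by
  have h1 := isIntegralElem_comp (evalSeries A x.y) (coeffMap (IsLocalRing.residue A)) c.y hc
  refine mem_valuationSubring_of_isIntegralElem Q.toValuationSubring
    (modularFunctionFieldFullC (IsLocalRing.ResidueField A) N).val.toRingHom
    Subtype.val_injective
    ((coeffMap (IsLocalRing.residue A)).comp (evalSeries A x.y))
    (Polynomial.eval₂RingHom
      ((algebraMap (IsLocalRing.ResidueField A) Q.toValuationSubring).comp
        (IsLocalRing.residue A)) ⟨x.sp, hx⟩) ?_ c.sp h1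
  intro r
  induction r using Polynomial.induction_on' with
  | add p q hp hq =>
    rw [map_add, map_add]
    push_cast
    rw [map_add, hp, hq]
  | monomial n a =>
    rw [← Polynomial.C_mul_X_pow_eq_monomial, map_mul, map_mul, map_pow, map_pow]
    push_cast
    rw [map_mul, map_pow]
    have e1 : evalSeries A x.y (Polynomial.C a) = HahnSeries.C a := by
      unfold evalSeries
      rw [Polynomial.coe_eval₂RingHom, Polynomial.eval₂_C]
    have e2 : evalSeries A x.y Polynomial.X = x.y := by
      unfold evalSeries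
      rw [Polynomial.coe_eval₂RingHom, Polynomial.eval₂_X]
    rw [RingHom.comp_apply, RingHom.comp_apply, e1, e2, coeffMap_C, ← algebraMap_eq_C,
      Polynomial.coe_eval₂RingHom, Polynomial.eval₂_C, Polynomial.eval₂_X]
    rfl

/-- **Multiset separation over a coordinate `x`** (common core of `msep_fin`, `msep_inf`). -/
theorem msep_over (x : IntElt A N)
    (S S' : Multiset (Place (IsLocalRing.ResidueField A)
      (modularFunctionFieldFullC (IsLocalRing.ResidueField A) N)))
    (hx : ∀ Q ∈ S + S', x.sp ∈ Q.toValuationSubring)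
    (hdeg : ∀ Q ∈ S + S', Q.deg = 1)
    (hsep : ∀ Q ∈ S + S', ∀ Q' ∈ S + S',
      (∀ c : IntElt A N, IsIntOver x.y c → ∀ b, HasValue Q c.sp b → HasValue Q' c.sp b) →
        Q = Q')
    (h : ∀ c : IntElt A N, IsIntOver x.y c →
      ∀ v : Place (IsLocalRing.ResidueField A)
        (modularFunctionFieldFullC (IsLocalRing.ResidueField A) N) → IsLocalRing.ResidueField A,
      (∀ Q ∈ S + S', HasValue Q c.sp (v Q)) →
        (S.map fun Q => (X - Polynomial.C (v Q) : (IsLocalRing.ResidueField A)[X])).prod =
          (S'.map fun Q => (X - Polynomial.C (v Q) : (IsLocalRing.ResidueField A)[X])).prod) :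
    S = S' := by
  refine multiset_place_eq (redOver A N x.y) S S' ?_ ?_ ?_
  · rintro Q hQ f ⟨c, hc, rfl⟩
    exact exists_hasValue_of_deg_eq_one (hdeg Q hQ) (sp_mem_of_isIntOver x Q (hx Q hQ) c hc)
  · intro Q hQ Q' hQ' hall
    exact hsep Q hQ Q' hQ' fun c hc b hb => hall c.sp ⟨c, hc, rfl⟩ b hb
  · rintro f ⟨c, hc, rfl⟩ v hv
    exact h c hc v hv

/-- **E-c [MSEP], finite chart.** -/
theorem msep_fin [NeZero N] (G : GeoRed A N) (jj : IntElt A N) (hjj : jj.y = jqModC A)
    (S S' : Multiset (Place (IsLocalRing.ResidueField A)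
      (modularFunctionFieldFullC (IsLocalRing.ResidueField A) N)))
    (hfin : ∀ Q ∈ S + S', ∃ a, HasValue Q jj.sp a)
    (hdeg : ∀ Q ∈ S + S', Q.deg = 1)
    (h : ∀ c : IntElt A N, c.IsFin →
      ∀ v : Place (IsLocalRing.ResidueField A)
        (modularFunctionFieldFullC (IsLocalRing.ResidueField A) N) → IsLocalRing.ResidueField A,
      (∀ Q ∈ S + S', HasValue Q c.sp (v Q)) →
        (S.map fun Q => (X - Polynomial.C (v Q) : (IsLocalRing.ResidueField A)[X])).prod =
          (S'.map fun Q => (X - Polynomial.C (v Q) : (IsLocalRing.ResidueField A)[X])).prod) :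
    S = S' := by
  refine msep_over jj S S' (fun Q hQ => ?_) hdeg ?_ ?_
  · obtain ⟨a, ha⟩ := hfin Q hQ
    exact hasValue_mem ha
  · intro Q hQ Q' _ hall
    obtain ⟨a, ha⟩ := hfin Q hQ
    refine G.sep_fin jj hjj Q Q' a ha fun c hc b hb => hall c ?_ b hb
    rw [hjj]
    exact hc
  · intro c hc v hv
    refine h c ?_ v hv
    rw [hjj] at hc
    exact hc

/-- **E-c [MSEP], chart at infinity.** -/
theorem msep_inf [NeZero N] (G : GeoRed A N) (uu : IntElt A N) (huu : uu.y * jqModC A = 1)
    (S S' : Multiset (Place (IsLocalRing.ResidueField A)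
      (modularFunctionFieldFullC (IsLocalRing.ResidueField A) N)))
    (hinf : ∀ Q ∈ S + S', ∃ a, HasValue Q uu.sp a)
    (hdeg : ∀ Q ∈ S + S', Q.deg = 1)
    (h : ∀ c : IntElt A N, c.IsInf →
      ∀ v : Place (IsLocalRing.ResidueField A)
        (modularFunctionFieldFullC (IsLocalRing.ResidueField A) N) → IsLocalRing.ResidueField A,
      (∀ Q ∈ S + S', HasValue Q c.sp (v Q)) →
        (S.map fun Q => (X - Polynomial.C (v Q) : (IsLocalRing.ResidueField A)[X])).prod =
          (S'.map fun Q => (X - Polynomial.C (v Q) : (IsLocalRing.ResidueField A)[X])).prod) :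
    S = S' := by
  refine msep_over uu S S' (fun Q hQ => ?_) hdeg ?_ ?_
  · obtain ⟨a, ha⟩ := hinf Q hQ
    exact hasValue_mem ha
  · intro Q hQ Q' _ hall
    obtain ⟨a, ha⟩ := hinf Q hQ
    exact G.sep_inf uu huu Q Q' a ha fun c hc b hb =>
      hall c ((isInf_iff_isIntOver huu c).mp hc) b hb
  · intro c hc v hv
    exact h c ((isInf_iff_isIntOver huu c).mpr hc) v hv

end Fermat.Agent.S37.H580
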